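import Mathlib.Algebra.Polynomial.Identities
import Mathlib.Algebra.Field.ZMod
import Mathlib.FieldTheory.Finite.Basic
import Mathlib.RingTheory.PowerSeries.Expand
import Mathlib.RingTheory.MvPowerSeries.Expand
import Mathlib.RingTheory.LaurentSeries
import Fermat.Prelude.Def_ModularCurve_JqCoeff
import Fermat.Agent.ModularFunctionField.Twist

/-!
# `j(q^N)` as an `N`-adic limit of rational functions of `j`

Given a polynomial relation `Φ(j, j(q^N)) = 0` with a simple root modulo `N`, the series
`j(q^N)` is congruent modulo every `N^k` to an element of `ℤ[j, 1/D(j)]`, `D` monic.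
-/

set_option autoImplicit false

noncomputable section

open Polynomial HahnSeries ModularCurve

namespace Fermat.Agent.ToricChar

variable {R : Type*} [CommRing R]

/-- The structure map of Laurent series is the constant embedding. -/
theorem algebraMap_eq_C (a : R) : algebraMap R (LaurentSeries R) a = HahnSeries.C a := by
  rw [HahnSeries.algebraMap_apply', ← HahnSeries.ofPowerSeries_C]
  simp

theorem jqModC_pow_mul_single {d i : ℕ} (h : i ≤ d) :
    jqModC R ^ i * HahnSeries.single (d : ℤ) 1 =
      HahnSeries.ofPowerSeries ℤ R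
        ((jNum.map (Int.castRingHom R)) ^ i * PowerSeries.X ^ (d - i)) := by
  have h1 : i • (-1 : ℤ) + (d : ℤ) = ((d - i : ℕ) : ℤ) := by simp; omega
  rw [jqModC, mul_pow, HahnSeries.single_pow, one_pow, map_mul, map_pow, map_pow,
    HahnSeries.ofPowerSeries_X, HahnSeries.single_pow, one_pow, mul_comm
      (HahnSeries.single _ (1 : R)) _, mul_assoc, HahnSeries.single_mul_single, one_mul, h1]
  simp

theorem aeval_jqModC_mul_single (D : R[X]) :
    aeval (jqModC R) D * HahnSeries.single (D.natDegree : ℤ) 1 =
      HahnSeries.ofPowerSeries ℤ R (∑ i ∈ Finset.range (D.natDegree + 1),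
        PowerSeries.C (D.coeff i) *
          ((jNum.map (Int.castRingHom R)) ^ i * PowerSeries.X ^ (D.natDegree - i))) := by
  rw [aeval_eq_sum_range, Finset.sum_mul, map_sum]
  refine Finset.sum_congr rfl fun i hi => ?_
  rw [map_mul, HahnSeries.ofPowerSeries_C, ← jqModC_pow_mul_single
    (Nat.lt_succ_iff.mp (Finset.mem_range.mp hi)), Algebra.smul_def, algebraMap_eq_C,
    mul_assoc]

/-- A polynomial with unit leading coefficient is invertible at `j`. -/
theorem isUnit_aeval_jqModC (D : R[X]) (hD : IsUnit D.leadingCoeff) :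
    IsUnit (aeval (jqModC R) D) := by
  have h0 : IsUnit (HahnSeries.ofPowerSeries ℤ R (∑ i ∈ Finset.range (D.natDegree + 1),
      PowerSeries.C (D.coeff i) *
        ((jNum.map (Int.castRingHom R)) ^ i * PowerSeries.X ^ (D.natDegree - i)))) := by
    refine IsUnit.map _ ?_
    rw [PowerSeries.isUnit_iff_constantCoeff, map_sum, Finset.sum_range_succ,
      Finset.sum_eq_zero, zero_add]
    · have hj : PowerSeries.constantCoeff (jNum.map (Int.castRingHom R)) = 1 := by
        rw [← PowerSeries.coeff_zero_eq_constantCoeff, PowerSeries.coeff_map,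
          PowerSeries.coeff_zero_eq_constantCoeff, constantCoeff_jNum, map_one]
      simpa [hj] using hD
    · intro i hi
      have : D.natDegree - i ≠ 0 := by have := Finset.mem_range.mp hi; omega
      simp [zero_pow this]
  rw [← aeval_jqModC_mul_single] at h0
  exact isUnit_of_mul_isUnit_left h0

/-- `j` is transcendental over every field of constants. -/
theorem aeval_jqModC_ne_zero {k : Type*} [Field k] {D : k[X]} (hD : D ≠ 0) :
    aeval (jqModC k) D ≠ 0 :=
  (isUnit_aeval_jqModC D (isUnit_iff_ne_zero.mpr (leadingCoeff_ne_zero.mpr hD))).ne_zero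

/-- `j` is transcendental over every field. -/
theorem jqModC_transcendental (k : Type*) [Field k] : Transcendental k (jqModC k) :=
  transcendental_iff.mpr fun _ hp => by_contra fun h => aeval_jqModC_ne_zero h hp

/-- A polynomial relation between `j` and `j(q^N)` which is simple modulo `N`. -/
structure SimpleRelation (N : ℕ) [NeZero N] where
  /-- the polynomial -/
  Φ : Polynomial (Polynomial ℤ)
  eval_eq_zero : (Φ.map (aeval (jqModC ℤ)).toRingHom).eval (jqNModC ℤ N) = 0
  derivative_ne_zero : ¬ ((N : LaurentSeries ℤ) ∣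
    (Φ.map (aeval (jqModC ℤ)).toRingHom).derivative.eval (jqNModC ℤ N))

/-- Frobenius on Laurent series over `ZMod p`. -/
theorem qExpand_eq_pow (p : ℕ) [Fact p.Prime] (x : LaurentSeries (ZMod p)) :
    qExpand (ZMod p) p x = x ^ p := by
  have : CharP (LaurentSeries (ZMod p)) p :=
    charP_of_injective_ringHom (f := HahnSeries.C) HahnSeries.C_injective p
  have hps : ∀ f : PowerSeries (ZMod p),
      qExpand (ZMod p) p (HahnSeries.ofPowerSeries ℤ (ZMod p) f) =
        HahnSeries.ofPowerSeries ℤ (ZMod p) f ^ p := by
    intro f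
    rw [← map_pow]
    ext n
    rcases lt_or_ge n 0 with hn | hn
    · rw [ofPowerSeries_coeff_of_neg _ hn]
      by_cases hd : (p : ℤ) ∣ n
      · obtain ⟨m, rfl⟩ := hd
        rw [qExpand_coeff_mul, ofPowerSeries_coeff_of_neg]
        exact neg_of_mul_neg_right hn (Int.natCast_nonneg p)
      · exact qExpand_coeff_of_not_dvd _ _ hd
    lift n to ℕ using hn
    have hf : f ^ p = PowerSeries.expand p (NeZero.ne p) f := by
      have := MvPowerSeries.map_frobenius_expand p (NeZero.ne p) (f := f)
      rw [ZMod.frobenius_zmod, MvPowerSeries.map_id] at this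
      exact this.symm
    rw [HahnSeries.ofPowerSeries_apply_coeff, hf, PowerSeries.coeff_expand]
    by_cases hd : p ∣ n
    · obtain ⟨m, rfl⟩ := hd
      rw [if_pos (dvd_mul_right p m), Nat.mul_div_cancel_left m (Nat.Prime.pos Fact.out),
        Nat.cast_mul, qExpand_coeff_mul, HahnSeries.ofPowerSeries_apply_coeff]
    · rw [if_neg hd, qExpand_coeff_of_not_dvd]
      exact_mod_cast hd
  obtain ⟨n, f, rfl⟩ : ∃ (n : ℤ) (f : PowerSeries (ZMod p)),
      x = HahnSeries.single n 1 * HahnSeries.ofPowerSeries ℤ (ZMod p) f :=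
    ⟨x.order, LaurentSeries.powerSeriesPart x,
      (LaurentSeries.single_order_mul_powerSeriesPart x).symm⟩
  rw [map_mul, qExpand_single, hps, mul_pow, HahnSeries.single_pow, one_pow, nsmul_eq_mul]

end Fermat.Agent.ToricChar

end
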